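import Fermat.Prelude.Def_CuspForm_Newforms
import Fermat.Prelude.Def_CuspForm_HeckeAlgebra

/-!
# Shared library NEWFORM — frozen interface (all statements are `Prop`-valued definitions)

Prelude facts that make the whole library *Petersson-free*:

* `CuspForm.IsNormalizedEigenform` is a condition on the `q`-coefficients only;
* `CuspForm.IsNewform` / `IsNewformAt` mean: the eigensystem away from the level does not
  occur (for a normalized eigenform) at a smaller level;
* `⇑(heckeTLin k hp hpN f) = ModularForm.heckeT k p ⇑f` and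
  `⇑(heckeULin k hqN f) = ModularForm.heckeU k q ⇑f` hold by `rfl`, so the function-level
  Hecke operators do not depend on the level.

Leaf interfaces (to be proved by the blocks): `EigenT`, `EigenU`, `Incl`, `Occurs`,
`LowerU`, `TraceAL`.  The assembly (`MainOf.lean`) derives from them

* `CuspForm.NewformBadPrimeCoeff N` (and the `IsNewformAt` versions),
* descent to a newform, and
* monotonicity of the level (stabilisation) with control of all good eigenvalues.
-/

set_option autoImplicit false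

open CongruenceSubgroup
open scoped MatrixGroups

namespace Fermat.Agent.Lib.Newform.H958

/-- **E2T**: a normalized eigenform is an eigenvector of `T_p`, `p ∤ N`, with eigenvalue `a_p`. -/
def EigenT : Prop :=
  ∀ (N : ℕ) (g : CuspForm (Gamma0 N) 2), g.IsNormalizedEigenform →
    ∀ (p : ℕ) (hp : p.Prime) (hpN : ¬ p ∣ N),
      CuspForm.heckeTLin 2 hp hpN g = ModularFormClass.qCoeff g p • g

/-- **E2U**: a normalized eigenform is an eigenvector of `U_p`, `p ∣ N`, with eigenvalue `a_p`. -/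
def EigenU : Prop :=
  ∀ (N : ℕ) [NeZero N] (g : CuspForm (Gamma0 N) 2), g.IsNormalizedEigenform →
    ∀ (p : ℕ) (_ : p.Prime) (hpN : p ∣ N),
      CuspForm.heckeULin 2 hpN g = ModularFormClass.qCoeff g p • g

/-- **INCL**: a cusp form of level `M` is a cusp form of every level `C` with `M ∣ C`
(same function). -/
def Incl : Prop :=
  ∀ (M C : ℕ), M ∣ C → ∀ g : CuspForm (Gamma0 M) 2,
    ∃ h : CuspForm (Gamma0 C) 2, (⇑h : UpperHalfPlane → ℂ) = ⇑g

/-- **OCC**: if a nonzero cusp form of level `M` is an eigenvector of `T_ℓ` with eigenvalue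
`a ℓ` for all primes `ℓ ∤ M` in a set `P`, then there is a *normalized eigenform* of level `M`
with `a_ℓ = a ℓ` for all those `ℓ`. -/
def Occurs : Prop :=
  ∀ (M : ℕ) [NeZero M] (h : CuspForm (Gamma0 M) 2), h ≠ 0 →
    ∀ (P : Set ℕ) (a : ℕ → ℂ),
      (∀ (ℓ : ℕ) (hℓ : ℓ.Prime) (hℓM : ¬ ℓ ∣ M), ℓ ∈ P →
        CuspForm.heckeTLin 2 hℓ hℓM h = a ℓ • h) →
      ∃ g : CuspForm (Gamma0 M) 2, g.IsNormalizedEigenform ∧
        ∀ ℓ : ℕ, ℓ.Prime → ¬ ℓ ∣ M → ℓ ∈ P → ModularFormClass.qCoeff g ℓ = a ℓ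

/-- **LOWER-U**: if `q² ∣ N` then `U_q` maps level `N` to level `N / q`. -/
def LowerU : Prop :=
  ∀ (N q : ℕ) [NeZero N], q.Prime → q ^ 2 ∣ N → ∀ f : CuspForm (Gamma0 N) 2,
    ∃ g : CuspForm (Gamma0 (N / q)) 2,
      (⇑g : UpperHalfPlane → ℂ) = ModularForm.heckeU 2 q ⇑f

/-- **TRACE-AL**: for `q ∥ N` there is an operator `W` (the Atkin–Lehner involution `W_q`)
on level `N`, commuting with all `T_ℓ`, `ℓ ∤ N`, such that both `f + U_q (W f)`
(the trace of `f`) and `W f + U_q f` (the trace of `W f`) have level `N / q`. -/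
def TraceAL : Prop :=
  ∀ (N q : ℕ) [NeZero N], q.Prime → q ∣ N → ¬ q ^ 2 ∣ N →
    ∃ W : CuspForm (Gamma0 N) 2 →ₗ[ℂ] CuspForm (Gamma0 N) 2,
      (∀ (ℓ : ℕ) (hℓ : ℓ.Prime) (hℓN : ¬ ℓ ∣ N) (f : CuspForm (Gamma0 N) 2),
        W (CuspForm.heckeTLin 2 hℓ hℓN f) = CuspForm.heckeTLin 2 hℓ hℓN (W f)) ∧
      (∀ f : CuspForm (Gamma0 N) 2, ∃ g : CuspForm (Gamma0 (N / q)) 2,
        (⇑g : UpperHalfPlane → ℂ) = ⇑f + ModularForm.heckeU 2 q ⇑(W f)) ∧
      (∀ f : CuspForm (Gamma0 N) 2, ∃ g : CuspForm (Gamma0 (N / q)) 2,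
        (⇑g : UpperHalfPlane → ℂ) = ⇑(W f) + ModularForm.heckeU 2 q ⇑f)

/-! ## Targets (what the consumers use) -/

/-- **BAD-AT**: the coefficient at a bad prime of a form that is new at that prime. -/
def BadCoeffAt : Prop :=
  ∀ (N : ℕ) [NeZero N] (f : CuspForm (Gamma0 N) 2) (q : ℕ), q.Prime → f.IsNewformAt q →
    (¬ q ^ 2 ∣ N → ModularFormClass.qCoeff f q ^ 2 = 1) ∧
    (q ^ 2 ∣ N → ModularFormClass.qCoeff f q = 0)

/-- **BAD**: the Prelude's `NewformBadPrimeCoeff` at all positive levels. -/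
def BadCoeff : Prop := ∀ (N : ℕ) [NeZero N], CuspForm.NewformBadPrimeCoeff N

/-- **DESCENT**: every normalized eigenform comes from a newform of a level dividing its
level, with the same eigenvalues away from the level. -/
def Descent : Prop :=
  ∀ (N : ℕ) [NeZero N] (f : CuspForm (Gamma0 N) 2), f.IsNormalizedEigenform →
    ∃ (M : ℕ) (_ : M ∣ N) (g : CuspForm (Gamma0 M) 2), g.IsNewform ∧
      ∀ ℓ : ℕ, ℓ.Prime → ¬ ℓ ∣ N → ModularFormClass.qCoeff g ℓ = ModularFormClass.qCoeff f ℓ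

/-- **STAB**: a normalized eigenform of level `M` gives a normalized eigenform of every
positive level `C` divisible by `M`, with the same eigenvalues at *all* primes `ℓ ∤ C`. -/
def Stab : Prop :=
  ∀ (M C : ℕ) [NeZero C], M ∣ C → ∀ g : CuspForm (Gamma0 M) 2, g.IsNormalizedEigenform →
    ∃ g' : CuspForm (Gamma0 C) 2, g'.IsNormalizedEigenform ∧
      ∀ ℓ : ℕ, ℓ.Prime → ¬ ℓ ∣ C → ModularFormClass.qCoeff g' ℓ = ModularFormClass.qCoeff g ℓ

end Fermat.Agent.Lib.Newform.H958
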