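import Fermat.Agent.Lib.Newform.H958.MainOf
import Fermat.Agent.Lib.Newform.H863.GoodEigen

/-!
# Shared library NEWFORM — leaves already available

* `occurs : Occurs` (adapter around helper863's `exists_normalizedEigenform_of_eigenvector`);
* `incl : Incl` (level inclusion `M ∣ C`).
-/

set_option autoImplicit false

open CongruenceSubgroup UpperHalfPlane
open scoped MatrixGroups

namespace Fermat.Agent.Lib.Newform.H958

theorem occurs : Occurs := by
  intro M _ h hh P a heig
  obtain ⟨g, hg, hgl⟩ := Fermat.Agent.Lib.Newform.H863.exists_normalizedEigenform_of_eigenvector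
    (S := Pᶜ) a h hh (fun ℓ hℓ hℓM hS => heig ℓ hℓ hℓM (by simpa using hS))
  exact ⟨g, hg, fun ℓ hℓ hℓM hP => hgl ℓ hℓ hℓM (by simpa using hP)⟩

theorem gamma0_le_of_dvd {M C : ℕ} (h : M ∣ C) : Gamma0 C ≤ Gamma0 M := by
  intro γ hγ
  rw [Gamma0_mem] at hγ ⊢
  exact (ZMod.intCast_zmod_eq_zero_iff_dvd _ _).mpr
    ((Int.natCast_dvd_natCast.mpr h).trans ((ZMod.intCast_zmod_eq_zero_iff_dvd _ _).mp hγ))

theorem incl : Incl := by
  intro M C hMC g
  have hle : (Gamma0 C : Subgroup (GL (Fin 2) ℝ)) ≤ (Gamma0 M : Subgroup (GL (Fin 2) ℝ)) :=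
    Subgroup.map_mono (gamma0_le_of_dvd hMC)
  exact ⟨{ toFun := ⇑g
           slash_action_eq' := fun γ hγ => SlashInvariantFormClass.slash_action_eq g γ (hle hγ)
           holo' := CuspFormClass.holo g
           zero_at_cusps' := fun hc => CuspFormClass.zero_at_cusps g (hc.mono hle) }, rfl⟩

end Fermat.Agent.Lib.Newform.H958
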