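import Fermat.Agent.Lib.Newform.H958.Spec
import Fermat.Prelude.Thm_ModularFormClass_heckeT_heckeU_comm
import Fermat.Prelude.Thm_CongruenceSubgroup_one_mem_strictPeriods_Gamma0

/-!
# Shared library NEWFORM — assembly

Everything in this file is proved from the leaf interfaces of `Spec.lean`
(hypothesis-parametrised, no `sorry`).
-/

set_option autoImplicit false

open CongruenceSubgroup UpperHalfPlane
open scoped MatrixGroups

namespace Fermat.Agent.Lib.Newform.H958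

open CuspForm ModularFormClass

/-! ## Descent to a newform (no interface needed) -/

theorem descent : Descent := by
  intro N
  induction N using Nat.strong_induction_on with
  | _ N ih =>
    intro _ f hf
    by_cases hnew : f.IsNewform
    · exact ⟨N, dvd_rfl, f, hnew, fun _ _ _ => rfl⟩
    · have hex : ∃ M, M ∣ N ∧ M ≠ N ∧ GoodEigensystemOccursAt f M := by
        by_contra h
        exact hnew ⟨hf, fun M hM hMN hocc => h ⟨M, hM, hMN, hocc⟩⟩
      obtain ⟨M, hMN, hne, g, hg, hgf⟩ := hex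
      have hN : N ≠ 0 := NeZero.ne N
      have hM0 : M ≠ 0 := fun h => by subst h; exact hN (zero_dvd_iff.mp hMN)
      have hlt : M < N := lt_of_le_of_ne (Nat.le_of_dvd (Nat.pos_of_ne_zero hN) hMN) hne
      haveI : NeZero M := ⟨hM0⟩
      obtain ⟨M', hM', g', hg', hgg'⟩ := ih M hlt g hg
      refine ⟨M', hM'.trans hMN, g', hg', fun ℓ hℓ hℓN => ?_⟩
      rw [hgg' ℓ hℓ (fun h => hℓN (h.trans hMN)), hgf ℓ hℓ hℓN]

/-! ## Helpers -/

/-- A cusp form with the same underlying function as a normalized eigenform, at a level with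
the same "bad/good" dichotomy, is a normalized eigenform. -/
theorem isNormalizedEigenform_of_coe_eq {N N' : ℕ} {f : CuspForm (Gamma0 N) 2}
    {f' : CuspForm (Gamma0 N') 2} (hf : f.IsNormalizedEigenform)
    (hcoe : (⇑f' : ℍ → ℂ) = ⇑f) (hdvd : ∀ p : ℕ, p.Prime → (p ∣ N' ↔ p ∣ N)) :
    f'.IsNormalizedEigenform where
  qCoeff_one := by rw [hcoe]; exact hf.qCoeff_one
  qCoeff_mul_of_coprime := by rw [hcoe]; exact hf.qCoeff_mul_of_coprime
  qCoeff_prime_pow_of_not_dvd := by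
    rw [hcoe]
    intro p r hp hpN
    exact hf.qCoeff_prime_pow_of_not_dvd p r hp (fun h => hpN ((hdvd p hp).mpr h))
  qCoeff_prime_pow_of_dvd := by
    rw [hcoe]
    intro p r hp hpN
    exact hf.qCoeff_prime_pow_of_dvd p r hp ((hdvd p hp).mp hpN)

theorem coe_ne_zero_of_isNormalizedEigenform {N : ℕ} {f : CuspForm (Gamma0 N) 2}
    (hf : f.IsNormalizedEigenform) : (⇑f : ℍ → ℂ) ≠ 0 := by
  intro h
  apply hf.ne_zero
  exact DFunLike.coe_injective h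

/-! ## Stabilisation -/

theorem stab_of (hE : EigenT) (hI : Incl) (hO : Occurs) : Stab := by
  intro M C _ hMC g hg
  obtain ⟨h, hh⟩ := hI M C hMC g
  have hh0 : h ≠ 0 := by
    intro h0
    apply coe_ne_zero_of_isNormalizedEigenform hg
    rw [← hh, h0]
    rfl
  obtain ⟨g', hg', hcoef⟩ := hO C h hh0 Set.univ (fun ℓ => qCoeff g ℓ) (by
    intro ℓ hℓ hℓC _
    have hℓM : ¬ ℓ ∣ M := fun h => hℓC (h.trans hMC)
    apply DFunLike.coe_injective
    have key := congrArg (fun F : CuspForm (Gamma0 M) 2 => (⇑F : ℍ → ℂ)) (hE M g hg ℓ hℓ hℓM)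
    simp only [CuspForm.coe_heckeTLin_apply] at key
    rw [CuspForm.coe_heckeTLin_apply, hh, key]
    ext τ
    simp [hh])
  exact ⟨g', hg', fun ℓ hℓ hℓC => hcoef ℓ hℓ hℓC trivial⟩

/-! ## Coefficients at bad primes -/

/-- Case `q² ∣ N`. -/
theorem qCoeff_eq_zero_of (hEU : EigenU) (hL : LowerU)
    {N : ℕ} [NeZero N] {f : CuspForm (Gamma0 N) 2} {q : ℕ} (hq : q.Prime)
    (hf : f.IsNewformAt q) (hq2 : q ^ 2 ∣ N) : qCoeff f q = 0 := by
  obtain ⟨hfe, hqN, hnocc⟩ := hf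
  by_contra ha
  apply hnocc
  obtain ⟨g, hg⟩ := hL N q hq hq2 f
  have hU := congrArg (fun F : CuspForm (Gamma0 N) 2 => (⇑F : ℍ → ℂ)) (hEU N f hfe q hq hqN)
  simp only [CuspForm.coe_heckeULin_apply] at hU
  -- `g = a_q • f` as functions
  have hgf : (⇑((qCoeff f q)⁻¹ • g) : ℍ → ℂ) = ⇑f := by
    ext τ
    have h1 : (g : ℍ → ℂ) τ = (qCoeff f q • f : CuspForm (Gamma0 N) 2) τ := by
      rw [hg, hU]
    simp only [CuspForm.IsGLPos.coe_smul, Pi.smul_apply, smul_eq_mul] at h1 ⊢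
    rw [h1, ← mul_assoc, inv_mul_cancel₀ ha, one_mul]
  have hdvd : ∀ p : ℕ, p.Prime → (p ∣ N / q ↔ p ∣ N) := by
    intro p hp
    constructor
    · intro h
      exact h.trans (Nat.div_dvd_of_dvd hqN)
    · intro h
      obtain ⟨c, hc⟩ := hq2
      have hNq : N / q = q * c := by
        rw [hc, pow_two, mul_assoc, Nat.mul_div_cancel_left _ hq.pos]
      rw [hNq]
      rw [hc, pow_two, mul_assoc] at h
      rcases (Nat.Prime.dvd_mul hp).mp h with h1 | h1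
      · exact h1.trans (dvd_mul_right q c)
      · exact h1
  exact ⟨(qCoeff f q)⁻¹ • g, isNormalizedEigenform_of_coe_eq hfe hgf hdvd,
    fun ℓ _ _ => by rw [hgf]⟩

/-- Both traces of a form in the eigenspace of a form that is new at `q ∥ N` vanish:
this is the form in which newness is used. -/
theorem eq_zero_of_level_div (hO : Occurs)
    {N : ℕ} [NeZero N] {f : CuspForm (Gamma0 N) 2} {q : ℕ} (hq : q.Prime)
    (hf : f.IsNewformAt q) (G : CuspForm (Gamma0 (N / q)) 2)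
    (hG : ∀ ℓ : ℕ, ℓ.Prime → ¬ ℓ ∣ N →
      ModularForm.heckeT 2 ℓ (⇑G : ℍ → ℂ) = qCoeff f ℓ • (⇑G : ℍ → ℂ)) : G = 0 := by
  obtain ⟨hfe, hqN, hnocc⟩ := hf
  by_contra hG0
  apply hnocc
  have hN : N ≠ 0 := NeZero.ne N
  have hM0 : N / q ≠ 0 := by
    intro h
    have := Nat.div_mul_cancel hqN
    rw [h, zero_mul] at this
    exact hN this.symm
  haveI : NeZero (N / q) := ⟨hM0⟩
  obtain ⟨g, hg, hcoef⟩ := hO (N / q) G hG0 {ℓ | ¬ ℓ ∣ N} (fun ℓ => qCoeff f ℓ) (by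
    intro ℓ hℓ hℓM hℓN
    apply DFunLike.coe_injective
    rw [CuspForm.coe_heckeTLin_apply, hG ℓ hℓ hℓN]
    rfl)
  exact ⟨g, hg, fun ℓ hℓ hℓN =>
    hcoef ℓ hℓ (fun h => hℓN (h.trans (Nat.div_dvd_of_dvd hqN))) hℓN⟩

/-- Case `q ∥ N`. -/
theorem qCoeff_sq_eq_one_of (hET : EigenT) (hEU : EigenU) (hO : Occurs) (hT : TraceAL)
    {N : ℕ} [NeZero N] {f : CuspForm (Gamma0 N) 2} {q : ℕ} (hq : q.Prime)
    (hf : f.IsNewformAt q) (hq2 : ¬ q ^ 2 ∣ N) : qCoeff f q ^ 2 = 1 := by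
  have hfe := hf.1
  have hqN := hf.2.1
  obtain ⟨W, hWT, hTr, hTr'⟩ := hT N q hq hqN hq2
  have hper := CongruenceSubgroup.one_mem_strictPeriods_Gamma0 N
  -- `T_ℓ f = a_ℓ f` and `T_ℓ (W f) = a_ℓ (W f)` as functions
  have hTf : ∀ ℓ : ℕ, ℓ.Prime → ¬ ℓ ∣ N →
      ModularForm.heckeT 2 ℓ (⇑f : ℍ → ℂ) = qCoeff f ℓ • (⇑f : ℍ → ℂ) := by
    intro ℓ hℓ hℓN
    have := congrArg (fun F : CuspForm (Gamma0 N) 2 => (⇑F : ℍ → ℂ)) (hET N f hfe ℓ hℓ hℓN)
    simpa using this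
  have hTWf : ∀ ℓ : ℕ, ℓ.Prime → ¬ ℓ ∣ N →
      ModularForm.heckeT 2 ℓ (⇑(W f) : ℍ → ℂ) = qCoeff f ℓ • (⇑(W f) : ℍ → ℂ) := by
    intro ℓ hℓ hℓN
    have h1 := hWT ℓ hℓ hℓN f
    rw [hET N f hfe ℓ hℓ hℓN, map_smul] at h1
    have := congrArg (fun F : CuspForm (Gamma0 N) 2 => (⇑F : ℍ → ℂ)) h1
    simpa using this.symm
  have hcop : ∀ ℓ : ℕ, ℓ.Prime → ¬ ℓ ∣ N → Nat.Coprime ℓ q := by
    intro ℓ hℓ hℓN
    rw [Nat.coprime_primes hℓ hq]
    rintro rfl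
    exact hℓN hqN
  -- the two traces
  obtain ⟨G, hG⟩ := hTr f
  obtain ⟨G', hG'⟩ := hTr' f
  have hG0 : G = 0 := by
    apply eq_zero_of_level_div hO hq hf G
    intro ℓ hℓ hℓN
    rw [hG, ModularForm.heckeT_add,
      ModularFormClass.heckeT_heckeU_comm (W f) hper (hcop ℓ hℓ hℓN), hTf ℓ hℓ hℓN,
      hTWf ℓ hℓ hℓN, ModularForm.heckeU_smul, smul_add]
  have hG'0 : G' = 0 := by
    apply eq_zero_of_level_div hO hq hf G'
    intro ℓ hℓ hℓN
    rw [hG', ModularForm.heckeT_add,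
      ModularFormClass.heckeT_heckeU_comm f hper (hcop ℓ hℓ hℓN), hTf ℓ hℓ hℓN,
      hTWf ℓ hℓ hℓN, ModularForm.heckeU_smul, smul_add]
  have hUf : ModularForm.heckeU 2 q (⇑f : ℍ → ℂ) = qCoeff f q • (⇑f : ℍ → ℂ) := by
    have := congrArg (fun F : CuspForm (Gamma0 N) 2 => (⇑F : ℍ → ℂ)) (hEU N f hfe q hq hqN)
    simpa using this
  -- `W f = - a_q f`
  have hWf : (⇑(W f) : ℍ → ℂ) = -(qCoeff f q • (⇑f : ℍ → ℂ)) := by
    have h0 : (⇑G' : ℍ → ℂ) = 0 := by rw [hG'0]; rfl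
    rw [hG', hUf] at h0
    exact eq_neg_of_add_eq_zero_left h0
  -- `f - a_q² f = 0`
  have h0 : (⇑G : ℍ → ℂ) = 0 := by rw [hG0]; rfl
  rw [hG, hWf, ModularForm.heckeU_neg, ModularForm.heckeU_smul, hUf] at h0
  have hfne := coe_ne_zero_of_isNormalizedEigenform hfe
  have h1 : (1 - qCoeff f q ^ 2) • (⇑f : ℍ → ℂ) = 0 := by
    rw [sub_smul, one_smul, pow_two, mul_smul]
    rw [← sub_eq_add_neg] at h0
    exact h0
  rcases smul_eq_zero.mp h1 with h | h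
  · exact (sub_eq_zero.mp h).symm
  · exact absurd h hfne

theorem badCoeffAt_of (hET : EigenT) (hEU : EigenU) (hO : Occurs) (hL : LowerU)
    (hT : TraceAL) : BadCoeffAt :=
  fun _ _ _ _ hq hf =>
    ⟨fun hq2 => qCoeff_sq_eq_one_of hET hEU hO hT hq hf hq2,
     fun hq2 => qCoeff_eq_zero_of hEU hL hq hf hq2⟩

theorem badCoeff_of (hB : BadCoeffAt) : BadCoeff :=
  fun N _ f hf q hq hqN => hB N f q hq (hf.isNewformAt hq hqN (NeZero.ne N))

end Fermat.Agent.Lib.Newform.H958
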