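import Fermat.Agent.Lib.Newform.H958.Leaves
import Fermat.Agent.Lib.Newform.H683.SpecLeaves
import Fermat.Agent.Lib.Newform.H563.LowerU
import Fermat.Agent.Lib.Newform.H923.TraceALProof

/-!
# Shared library NEWFORM — unconditional results (consumer API, part 1)

All leaf interfaces of `Spec.lean` are proved (helper683: `EigenT`, `EigenU`; helper563:
`LowerU`; helper923: `TraceAL`; helper863/helper958: `Occurs`, `Incl`), so the targets hold
unconditionally:

* `newformBadPrimeCoeff N : CuspForm.NewformBadPrimeCoeff N` for every `N ≠ 0`;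
* `badCoeffAt` : the same for forms that are new at a single prime (`CuspForm.IsNewformAt`);
* `descent` : every normalized eigenform comes from a newform of a level dividing its level;
* `stab` : a normalized eigenform of level `M ∣ C` gives a normalized eigenform of level `C`
  with the same eigenvalues at all primes `ℓ ∤ C`.
-/

set_option autoImplicit false

open CongruenceSubgroup

namespace Fermat.Agent.Lib.Newform.H958

theorem badCoeffAt : BadCoeffAt :=
  badCoeffAt_of Fermat.Agent.Lib.Newform.H683.eigenT Fermat.Agent.Lib.Newform.H683.eigenU occurs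
    Fermat.Agent.Lib.Newform.H563.lowerU Fermat.Agent.Lib.Newform.H923.traceAL

theorem badCoeff : BadCoeff := badCoeff_of badCoeffAt

/-- The Prelude's `NewformBadPrimeCoeff` holds at every positive level. -/
theorem newformBadPrimeCoeff (N : ℕ) [NeZero N] : CuspForm.NewformBadPrimeCoeff N := badCoeff N

theorem stab : Stab :=
  stab_of Fermat.Agent.Lib.Newform.H683.eigenT incl occurs

/-- `a_q² = 1` for a newform at a prime `q ∥ N`. -/
theorem qCoeff_sq_eq_one {N : ℕ} [NeZero N] {f : CuspForm (Gamma0 N) 2} (hf : f.IsNewform)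
    {q : ℕ} (hq : q.Prime) (hqN : q ∣ N) (hq2 : ¬ q ^ 2 ∣ N) :
    ModularFormClass.qCoeff f q ^ 2 = 1 :=
  (newformBadPrimeCoeff N f hf q hq hqN).1 hq2

/-- `a_q = 0` for a newform at a prime `q` with `q² ∣ N`. -/
theorem qCoeff_eq_zero {N : ℕ} [NeZero N] {f : CuspForm (Gamma0 N) 2} (hf : f.IsNewform)
    {q : ℕ} (hq : q.Prime) (hq2 : q ^ 2 ∣ N) :
    ModularFormClass.qCoeff f q = 0 :=
  (newformBadPrimeCoeff N f hf q hq ((dvd_pow_self q two_ne_zero).trans hq2)).2 hq2

end Fermat.Agent.Lib.Newform.H958
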